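import Fermat.Agent.S41.Forms.Incl
import Fermat.Agent.S41.Defs

set_option autoImplicit false

/-!
# S41 / T8a / Comm : the degeneracy maps commute with the good Hecke operators; `lift_mem_old`
-/

open UpperHalfPlane CongruenceSubgroup ModularForm ModularFormClass
open scoped MatrixGroups

namespace Fermat.Agent.S41.Forms

open Fermat.Agent.S37.Fin Fermat.Agent.S49 Fermat.Agent.NEW

theorem comm_diag_hecke {q ℓ : ℕ} (hq : q ≠ 0) (hℓ : ℓ ≠ 0) (j : ℕ) (z : ℍ) :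
    heckeDiagMatrix q • (heckeMatrix ℓ j • z) =
      heckeMatrix ℓ (q * j) • (heckeDiagMatrix q • z) := by
  apply UpperHalfPlane.ext
  rw [coe_heckeDiagMatrix_smul hq, coe_heckeMatrix_smul hℓ, coe_heckeMatrix_smul hℓ,
    coe_heckeDiagMatrix_smul hq]
  push_cast
  ring

theorem comm_diag_diag {q ℓ : ℕ} (hq : q ≠ 0) (hℓ : ℓ ≠ 0) (z : ℍ) :
    heckeDiagMatrix q • (heckeDiagMatrix ℓ • z) = heckeDiagMatrix ℓ • (heckeDiagMatrix q • z) := by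
  apply UpperHalfPlane.ext
  rw [coe_heckeDiagMatrix_smul hq, coe_heckeDiagMatrix_smul hℓ, coe_heckeDiagMatrix_smul hℓ,
    coe_heckeDiagMatrix_smul hq]
  ring

theorem comm_hecke_mod {ℓ : ℕ} (hℓ : ℓ ≠ 0) (n : ℕ) (w : ℍ) :
    heckeMatrix ℓ n • w = (((n / ℓ : ℕ) : ℝ)) +ᵥ (heckeMatrix ℓ (n % ℓ) • w) := by
  apply UpperHalfPlane.ext
  have hℓ' : (ℓ : ℂ) ≠ 0 := by exact_mod_cast hℓ
  have hn : (n : ℂ) = (ℓ : ℂ) * ((n / ℓ : ℕ) : ℂ) + ((n % ℓ : ℕ) : ℂ) := by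
    exact_mod_cast (Nat.div_add_mod n ℓ).symm
  rw [UpperHalfPlane.coe_vadd, coe_heckeMatrix_smul hℓ, coe_heckeMatrix_smul hℓ, hn]
  push_cast
  field_simp
  ring

theorem comm_apply_mod (N : ℕ) (f : CuspForm (Gamma0 N) 2) {ℓ : ℕ} (hℓ : ℓ ≠ 0) (n : ℕ) (w : ℍ) :
    f (heckeMatrix ℓ n • w) = f (heckeMatrix ℓ (n % ℓ) • w) := by
  rw [comm_hecke_mod hℓ n w, stab_period]

theorem comm_image {q ℓ : ℕ} (hℓ : ℓ ≠ 0) (hc : Nat.Coprime ℓ q) :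
    (Finset.range ℓ).image (fun j => (q * j) % ℓ) = Finset.range ℓ := by
  apply Finset.eq_of_subset_of_card_le
  · intro x hx
    obtain ⟨j, _, rfl⟩ := Finset.mem_image.mp hx
    exact Finset.mem_range.mpr (Nat.mod_lt _ (Nat.pos_of_ne_zero hℓ))
  · rw [Finset.card_image_of_injOn]
    intro a ha b hb hab
    have ha' : a < ℓ := Finset.mem_range.mp ha
    have hb' : b < ℓ := Finset.mem_range.mp hb
    have h1 : q * a ≡ q * b [MOD ℓ] := hab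
    exact (Nat.ModEq.cancel_left_of_coprime hc h1).eq_of_lt_of_lt ha' hb'

theorem comm_injOn {q ℓ : ℕ} (hc : Nat.Coprime ℓ q) :
    Set.InjOn (fun j => (q * j) % ℓ) (Finset.range ℓ : Set ℕ) := by
  intro a ha b hb hab
  have ha' : a < ℓ := Finset.mem_range.mp ha
  have hb' : b < ℓ := Finset.mem_range.mp hb
  have h1 : q * a ≡ q * b [MOD ℓ] := hab
  exact (Nat.ModEq.cancel_left_of_coprime hc h1).eq_of_lt_of_lt ha' hb'

theorem comm_sum (N : ℕ) (f : CuspForm (Gamma0 N) 2) {q ℓ : ℕ} (hℓ : ℓ ≠ 0)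
    (hc : Nat.Coprime ℓ q) (w : ℍ) :
    ∑ j ∈ Finset.range ℓ, f (heckeMatrix ℓ (q * j) • w) =
      ∑ j ∈ Finset.range ℓ, f (heckeMatrix ℓ j • w) := by
  conv_rhs => rw [← comm_image hℓ hc, Finset.sum_image (comm_injOn hc)]
  exact Finset.sum_congr rfl fun j _ => comm_apply_mod N f hℓ _ w

variable {N q : ℕ} [NeZero N] [NeZero q]

theorem heckeFam_inclA (ℓ : ℕ) (hℓ : ℓ.Prime) (h : ¬ ℓ ∣ N * q) (f : CuspForm (Gamma0 N) 2) :
    S31.heckeFam (N * q) ℓ (inclA N q f) = inclA N q (S31.heckeFam N ℓ f) := by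
  have h' : ¬ ℓ ∣ N := fun hd => h (Dvd.dvd.mul_right hd q)
  have e1 : S31.heckeFam (N * q) ℓ = CuspForm.heckeTLin 2 hℓ h := dif_pos ⟨hℓ, h⟩
  have e2 : S31.heckeFam N ℓ = CuspForm.heckeTLin 2 hℓ h' := dif_pos ⟨hℓ, h'⟩
  rw [e1, e2]
  apply DFunLike.coe_injective
  rw [CuspForm.coe_heckeTLin_apply, coe_inclA, coe_inclA, CuspForm.coe_heckeTLin_apply]

theorem heckeFam_inclB (ℓ : ℕ) (hℓ : ℓ.Prime) (h : ¬ ℓ ∣ N * q) (f : CuspForm (Gamma0 N) 2) :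
    S31.heckeFam (N * q) ℓ (inclB N q f) = inclB N q (S31.heckeFam N ℓ f) := by
  have h' : ¬ ℓ ∣ N := fun hd => h (Dvd.dvd.mul_right hd q)
  have hq0 : q ≠ 0 := NeZero.ne q
  have hc : Nat.Coprime ℓ q :=
    (Nat.Prime.coprime_iff_not_dvd hℓ).mpr fun hd => h (Dvd.dvd.mul_left hd N)
  have e1 : S31.heckeFam (N * q) ℓ = CuspForm.heckeTLin 2 hℓ h := dif_pos ⟨hℓ, h⟩
  have e2 : S31.heckeFam N ℓ = CuspForm.heckeTLin 2 hℓ h' := dif_pos ⟨hℓ, h'⟩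
  rw [e1, e2]
  apply DFunLike.coe_injective
  funext z
  rw [CuspForm.coe_heckeTLin_apply, heckeT_apply 2 hℓ.ne_zero, inclB_apply N q f,
    inclB_apply N q (CuspForm.heckeTLin 2 hℓ h' f),
    CuspForm.coe_heckeTLin_apply, heckeT_apply 2 hℓ.ne_zero,
    comm_diag_diag hq0 hℓ.ne_zero, ← comm_sum N f hℓ.ne_zero hc,
    Finset.sum_congr rfl (fun j _ => by rw [inclB_apply, comm_diag_hecke hq0 hℓ.ne_zero]),
    ← Finset.mul_sum]
  ring

/-- polynomials in the good Hecke operators commute with a map which commutes with them. -/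
theorem lift_comm (G : ℕ → Prop) (hG : ∀ ℓ, G ℓ → ℓ.Prime ∧ ¬ ℓ ∣ N * q)
    (J : CuspForm (Gamma0 N) 2 →ₗ[ℂ] CuspForm (Gamma0 (N * q)) 2)
    (hJ : ∀ ℓ, ℓ.Prime → ¬ ℓ ∣ N * q → ∀ f, S31.heckeFam (N * q) ℓ (J f) = J (S31.heckeFam N ℓ f))
    (P : FreeAlgebra ℤ ℕ) (f : CuspForm (Gamma0 N) 2) :
    FreeAlgebra.lift ℤ (S31.heckeFam (N * q)) (mask G P) (J f) =
      J (FreeAlgebra.lift ℤ (S31.heckeFam N) (mask G P) f) := by
  classical
  rw [lift_mask, lift_mask]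
  exact (S30.linkPeriod_intertwine (S30.linkPeriod_toAdd ℂ (CuspForm (Gamma0 N) 2))
    (S30.linkPeriod_toAdd ℂ (CuspForm (Gamma0 (N * q)) 2))
    (fun ℓ => if G ℓ then S31.heckeFam N ℓ else 0)
    (fun ℓ => if G ℓ then S31.heckeFam (N * q) ℓ else 0) J.toAddMonoidHom (by
      intro ℓ a
      by_cases hg : G ℓ
      · simp only [if_pos hg]
        exact (hJ ℓ (hG ℓ hg).1 (hG ℓ hg).2 a).symm
      · simp only [if_neg hg]
        exact map_zero J) P f).symm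

/-- **`lift_mem_old`**: a polynomial in the good Hecke operators which kills `Vnew` maps `S₂(Γ₀(Nq))` into the old space. -/
theorem lift_mem_old (G : ℕ → Prop) (hG : ∀ ℓ, G ℓ → ℓ.Prime ∧ ¬ ℓ ∣ N * q)
    (hdec : ∀ g : CuspForm (Gamma0 (N * q)) 2, ∃ f₁ f₂ : CuspForm (Gamma0 N) 2,
      ∃ v ∈ S41.Vnew (N * q) q (Dvd.intro_left N rfl), g = inclA N q f₁ + inclB N q f₂ + v)
    (P : FreeAlgebra ℤ ℕ)
    (hP : ∀ v ∈ S41.Vnew (N * q) q (Dvd.intro_left N rfl),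
      FreeAlgebra.lift ℤ (S31.heckeFam (N * q)) (mask G P) v = 0)
    (g : CuspForm (Gamma0 (N * q)) 2) :
    ∃ f₁ f₂ : CuspForm (Gamma0 N) 2,
      FreeAlgebra.lift ℤ (S31.heckeFam (N * q)) (mask G P) g = inclA N q f₁ + inclB N q f₂ := by
  obtain ⟨f₁, f₂, v, hv, rfl⟩ := hdec g
  refine ⟨FreeAlgebra.lift ℤ (S31.heckeFam N) (mask G P) f₁,
    FreeAlgebra.lift ℤ (S31.heckeFam N) (mask G P) f₂, ?_⟩
  rw [map_add, map_add, hP v hv, add_zero, lift_comm G hG (inclA N q) heckeFam_inclA,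
    lift_comm G hG (inclB N q) heckeFam_inclB]

end Fermat.Agent.S41.Forms
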