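import Fermat.Agent.S37.Fin.Eig

set_option autoImplicit false

/-!
# S41 / T8a / Delta : `(q+1)² - T_q²` is bijective on `S₂(Γ₀(N))`
-/

open CongruenceSubgroup Polynomial

namespace Fermat.Agent.S41.Forms

open Fermat.Agent.S37.Fin

theorem cP_two (ℓ : ℕ) : cP ℓ 2 = (C (ℓ : ℤ) + 1) ^ 2 - X ^ 2 := by
  simp only [cP, ab]
  ring

theorem delta_apply {N q : ℕ} [NeZero N] (hq : q.Prime) (hqN : ¬ q ∣ N)
    (f : CuspForm (Gamma0 N) 2) :
    aeval (CuspForm.heckeTLin 2 hq hqN) (cP q 2) f =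
      ((q : ℂ) + 1) ^ 2 • f - CuspForm.heckeTLin 2 hq hqN (CuspForm.heckeTLin 2 hq hqN f) := by
  rw [cP_two, map_sub, map_pow, map_pow, map_add, map_one, aeval_X, aeval_C,
    LinearMap.sub_apply, pow_two (CuspForm.heckeTLin 2 hq hqN), Module.End.mul_apply]
  congr 1
  have h1 : (algebraMap ℤ (Module.End ℂ (CuspForm (Gamma0 N) 2)) (q : ℤ) + 1) =
      ((q : ℂ) + 1) • (1 : Module.End ℂ (CuspForm (Gamma0 N) 2)) := by
    ext x
    simp [add_smul]
  rw [h1, _root_.smul_pow, one_pow, LinearMap.smul_apply, Module.End.one_apply]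

theorem delta_surjective {N q : ℕ} [NeZero N] (hq : q.Prime) (hqN : ¬ q ∣ N)
    (f : CuspForm (Gamma0 N) 2) :
    ∃ y : CuspForm (Gamma0 N) 2,
      ((q : ℂ) + 1) ^ 2 • y - CuspForm.heckeTLin 2 hq hqN (CuspForm.heckeTLin 2 hq hqN y) = f := by
  have hfd : FiniteDimensional ℂ (CuspForm (Gamma0 N) 2) := S23.main_finiteDimensional N 2
  have hinj := form_injective hq hqN (k := 2) (by norm_num)
  have hsurj := LinearMap.injective_iff_surjective.1 hinj
  obtain ⟨y, hy⟩ := hsurj f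
  exact ⟨y, by rw [← delta_apply hq hqN]; exact hy⟩

end Fermat.Agent.S41.Forms
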