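import Fermat.Agent.S41.Forms.Trace
import Fermat.Agent.S41.Forms.Delta
import Fermat.Agent.S41.Defs

/-!
# S41 / T8a, leaf Solve : `S' = O + ker (U² - 1)`

Abstract linear algebra: `A B : S → S'`, `U (A f) = A (T f) - B f`, `U (B f) = q • A f`, `Δ = (q+1)² - T²` onto,
`(U² - 1) S' ⊂ A S + B S`.  Then every `g` is `A f₁ + B f₂ + v` with `U² v = v`.
-/

set_option autoImplicit false

open CongruenceSubgroup

namespace Fermat.Agent.S41.Forms

theorem solve_abs {S S' : Type*} [AddCommGroup S] [Module ℂ S] [AddCommGroup S'] [Module ℂ S']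
    (q : ℂ) (A B : S →ₗ[ℂ] S') (T : Module.End ℂ S) (U : Module.End ℂ S')
    (hUA : ∀ f, U (A f) = A (T f) - B f) (hUB : ∀ f, U (B f) = q • A f)
    (hΔ : ∀ y : S, ∃ z : S, ((q + 1) ^ 2) • z - T (T z) = y)
    (htr : ∀ g, ∃ f₁ f₂, U (U g) - g = A f₁ + B f₂) (g : S') :
    ∃ f₁ f₂ v, U (U v) = v ∧ g = A f₁ + B f₂ + v := by
  obtain ⟨y₁, y₂, hy⟩ := htr g
  obtain ⟨z₁, hz₁⟩ := hΔ y₁
  obtain ⟨z₂, hz₂⟩ := hΔ y₂
  have hU1 : ∀ x x' : S, U (A x + B x') = A (T x + q • x') + B (-x) := by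
    intro x x'
    rw [map_add, hUA, hUB, map_add, map_smul, map_neg]
    abel
  set x₁ : S := -((q + 1) • z₁) - q • T z₂ with hx₁
  set x₂ : S := T z₁ + (T (T z₂) - (q + 1) • z₂) with hx₂
  have e1 : T (T x₁ + q • x₂) + q • (-x₁) - x₁ = y₁ := by
    rw [← hz₁, hx₁, hx₂]
    simp only [map_add, map_sub, map_neg, map_smul]
    module
  have e2 : -(T x₁ + q • x₂) - x₂ = y₂ := by
    rw [← hz₂, hx₁, hx₂]
    simp only [map_sub, map_neg, map_smul]
    module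
  have key : U (U (A x₁ + B x₂)) - (A x₁ + B x₂) = A y₁ + B y₂ := by
    rw [hU1, hU1, ← e1, ← e2]
    simp only [map_add, map_sub, map_neg, map_smul]
    abel
  refine ⟨x₁, x₂, g - (A x₁ + B x₂), ?_, by abel⟩
  have h1 : U (U (g - (A x₁ + B x₂))) - (g - (A x₁ + B x₂)) = 0 := by
    rw [map_sub, map_sub]
    have : U (U g) - U (U (A x₁ + B x₂)) - (g - (A x₁ + B x₂)) =
        (U (U g) - g) - (U (U (A x₁ + B x₂)) - (A x₁ + B x₂)) := by abel
    rw [this, hy, key, sub_self]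
  exact sub_eq_zero.mp h1

/-- **(E7)**: `S₂(Γ₀(Nq)) = O + ker (U_q² - 1)`. -/
theorem forms_decomp_alt {N q : ℕ} [NeZero N] [NeZero q] (hq : q.Prime) (hqN : ¬ q ∣ N)
    (g : CuspForm (Gamma0 (N * q)) 2) :
    ∃ f₁ f₂ : CuspForm (Gamma0 N) 2, ∃ v ∈ S41.Vnew (N * q) q (Dvd.intro_left N rfl),
      g = inclA N q f₁ + inclB N q f₂ + v := by
  obtain ⟨f₁, f₂, v, hv, hg⟩ := solve_abs (q : ℂ) (inclA N q) (inclB N q)
    (CuspForm.heckeTLin 2 hq hqN) (CuspForm.heckeULin 2 (Dvd.intro_left N rfl : q ∣ N * q))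
    (U_inclA hq hqN) U_inclB (delta_surjective hq hqN) (exists_old hq hqN) g
  refine ⟨f₁, f₂, v, ?_, hg⟩
  rw [S41.Vnew, LinearMap.mem_ker, LinearMap.sub_apply, Module.End.mul_apply, hv,
    Module.End.one_apply, sub_self]

end Fermat.Agent.S41.Forms
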