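import Fermat.Agent.S41.Forms.Mat

set_option autoImplicit false

/-!
# S41 / T8a / AL : the Atkin--Lehner operator `g ↦ g ∣ W` on `S₂(Γ₀(Nq))`
-/

open UpperHalfPlane CongruenceSubgroup ModularForm ModularFormClass
open scoped MatrixGroups

namespace Fermat.Agent.S41.Forms

open Matrix.SpecialLinearGroup Fermat.Agent.S23
open scoped Pointwise

variable {N q : ℕ} {s t : ℤ}

open ConjAct in
theorem Gamma0_le_conj_Wm (h : Bez N q s t) :
    ((Gamma0 (N * q) : Subgroup SL(2, ℤ)) : Subgroup (GL (Fin 2) ℝ)) ≤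
      toConjAct (Wm h)⁻¹ •
        ((Gamma0 (N * q) : Subgroup SL(2, ℤ)) : Subgroup (GL (Fin 2) ℝ)) := by
  intro g hg
  obtain ⟨γ, hγ, rfl⟩ := hg
  rw [map_inv, Subgroup.mem_inv_pointwise_smul_iff, toConjAct_smul]
  have hγ' : ((γ 1 0 : ℤ) : ZMod (N * q)) = 0 := Gamma0_mem.mp hγ
  rw [ZMod.intCast_zmod_eq_zero_iff_dvd] at hγ'
  obtain ⟨c', hc'⟩ := hγ'
  have hdet : γ 0 0 * γ 1 1 - γ 0 1 * γ 1 0 = 1 := by
    have := γ.det_coe
    rwa [Matrix.det_fin_two] at this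
  rw [hc'] at hdet
  push_cast at hdet
  have hrel := h.rel
  let δ : SL(2, ℤ) :=
    ⟨!![q * s * γ 0 0 + N * q * t * c' - N * q * s * γ 0 1 - N * t * γ 1 1,
        -(s * t * γ 0 0) - N * t ^ 2 * c' + q * s ^ 2 * γ 0 1 + s * t * γ 1 1;
        (N : ℤ) * q * (γ 0 0 + q * c' - N * γ 0 1 - γ 1 1),
        -(N * t * γ 0 0) - N * q * t * c' + N * q * s * γ 0 1 + q * s * γ 1 1], by
      rw [Matrix.det_fin_two_of]
      have e : (q * s * γ 0 0 + N * q * t * c' - N * q * s * γ 0 1 - N * t * γ 1 1) *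
          (-(N * t * γ 0 0) - N * q * t * c' + N * q * s * γ 0 1 + q * s * γ 1 1) -
          (-(s * t * γ 0 0) - N * t ^ 2 * c' + q * s ^ 2 * γ 0 1 + s * t * γ 1 1) *
          ((N : ℤ) * q * (γ 0 0 + q * c' - N * γ 0 1 - γ 1 1)) =
          ((q : ℤ) * s - N * t) ^ 2 * (γ 0 0 * γ 1 1 - γ 0 1 * (N * q * c')) := by ring
      rw [e, hrel, hdet]
      norm_num⟩
  have hδ : δ ∈ Gamma0 (N * q) := by
    apply Gamma0_mem.mpr
    show (((N : ℤ) * q * (γ 0 0 + q * c' - N * γ 0 1 - γ 1 1) : ℤ) : ZMod (N * q)) = 0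
    rw [ZMod.intCast_zmod_eq_zero_iff_dvd]
    push_cast
    exact Dvd.intro _ rfl
  refine ⟨δ, hδ, ?_⟩
  rw [eq_mul_inv_iff_mul_eq]
  apply Matrix.GeneralLinearGroup.ext
  intro i j
  have hc'' : ((γ 1 0 : ℤ) : ℝ) = N * q * c' := by rw [hc']; push_cast; ring
  have hδv : ((δ : SL(2, ℤ)) : Matrix (Fin 2) (Fin 2) ℤ) =
    !![q * s * γ 0 0 + N * q * t * c' - N * q * s * γ 0 1 - N * t * γ 1 1,
        -(s * t * γ 0 0) - N * t ^ 2 * c' + q * s ^ 2 * γ 0 1 + s * t * γ 1 1;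
        (N : ℤ) * q * (γ 0 0 + q * c' - N * γ 0 1 - γ 1 1),
        -(N * t * γ 0 0) - N * q * t * c' + N * q * s * γ 0 1 + q * s * γ 1 1] := rfl
  have hR := h.relR
  rw [Matrix.GeneralLinearGroup.coe_mul, Matrix.GeneralLinearGroup.coe_mul, val_Wm, mapGL_val,
    mapGL_val, hδv, hc'', Matrix.mul_fin_two, Matrix.mul_fin_two]
  fin_cases i <;> fin_cases j <;> simp
  · linear_combination ((q : ℝ) * s * (γ 0 0 : ℝ) + (N : ℝ) * q * t * c') * hR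
  · linear_combination ((q : ℝ) * s * (γ 0 1 : ℝ) + t * (γ 1 1 : ℝ)) * hR
  · linear_combination ((N : ℝ) * q * (γ 0 0 : ℝ) + (N : ℝ) * q * q * c') * hR
  · linear_combination ((N : ℝ) * q * (γ 0 1 : ℝ) + q * (γ 1 1 : ℝ)) * hR

/-- the Atkin--Lehner operator. -/
noncomputable def wOp (h : Bez N q s t) (g : CuspForm (Gamma0 (N * q)) 2) :
    CuspForm (Gamma0 (N * q)) 2 where
  toFun := CuspForm.translate g (Wm h)
  slash_action_eq' := fun γ hγ =>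
    (CuspForm.translate g (Wm h)).slash_action_eq' γ (Gamma0_le_conj_Wm h hγ)
  holo' := (CuspForm.translate g (Wm h)).holo'
  zero_at_cusps' := fun hc =>
    (CuspForm.translate g (Wm h)).zero_at_cusps' (hc.mono (Gamma0_le_conj_Wm h))

theorem coe_wOp (h : Bez N q s t) (g : CuspForm (Gamma0 (N * q)) 2) :
    ⇑(wOp h g) = ⇑g ∣[(2 : ℤ)] Wm h := rfl

theorem slash_mapGL_of_mem {M : ℕ} (g : CuspForm (Gamma0 M) 2) {γ : SL(2, ℤ)} (hγ : γ ∈ Gamma0 M) :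
    ⇑g ∣[(2 : ℤ)] (mapGL ℝ γ : GL (Fin 2) ℝ) = ⇑g :=
  g.slash_action_eq' _ ⟨γ, hγ, rfl⟩

theorem wOp_wOp (h : Bez N q s t) (g : CuspForm (Gamma0 (N * q)) 2) : wOp h (wOp h g) = g := by
  apply DFunLike.coe_injective
  rw [coe_wOp, coe_wOp, ← SlashAction.slash_mul,
    slash_eq_of_smul _ _ (mapGL ℝ (g0 h)) (q : ℝ) (by exact_mod_cast h.q0) (det_mapGL_pos _)
      (Wm_mul_Wm h), slash_mapGL_of_mem g (g0_mem h)]

/-- `U_q (g ∣ W) = ∑_j g ∣ δ_j`. -/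
theorem coe_U_wOp [NeZero N] [NeZero q] (h : Bez N q s t) (g : CuspForm (Gamma0 (N * q)) 2) :
    ⇑(CuspForm.heckeULin 2 (Dvd.intro_left N rfl : q ∣ N * q) (wOp h g)) =
      ∑ j ∈ Finset.range q, ⇑g ∣[(2 : ℤ)] (mapGL ℝ (dl h j) : GL (Fin 2) ℝ) := by
  rw [CuspForm.coe_heckeULin_apply, heckeU_def]
  apply Finset.sum_congr rfl
  intro j _
  rw [coe_wOp, ← SlashAction.slash_mul,
    slash_eq_of_smul _ _ (mapGL ℝ (dl h j)) (q : ℝ) (by exact_mod_cast h.q0) (det_mapGL_pos _)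
      (Wm_mul_heckeMatrix h j)]

end Fermat.Agent.S41.Forms
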