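import Fermat.Agent.S37.Fin.Stab
import Fermat.Agent.S49.Forms

set_option autoImplicit false

/-!
# S41 / T8a / Incl : the two degeneracy maps `S₂(Γ₀(N)) → S₂(Γ₀(Nq))` and `U_q` on the old space
-/

open UpperHalfPlane CongruenceSubgroup ModularForm ModularFormClass
open scoped MatrixGroups

namespace Fermat.Agent.S41.Forms

open Fermat.Agent.S37.Fin Fermat.Agent.S49

variable (N q : ℕ)

/-- `f ↦ f`. -/
noncomputable def inclA : CuspForm (Gamma0 N) 2 →ₗ[ℂ] CuspForm (Gamma0 (N * q)) 2 where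
  toFun f :=
    { toFun := f
      slash_action_eq' := fun γ hγ => f.slash_action_eq' γ (stab_Gamma0_le N q hγ)
      holo' := f.holo'
      zero_at_cusps' := fun hc => f.zero_at_cusps' (hc.mono (stab_Gamma0_le N q)) }
  map_add' _ _ := rfl
  map_smul' _ _ := rfl

@[simp] theorem coe_inclA (f : CuspForm (Gamma0 N) 2) : ⇑(inclA N q f) = ⇑f := rfl

/-- `f ↦ f ∣ diag(q,1)`, i.e. `z ↦ q f(q z)`. -/
noncomputable def inclB [NeZero q] : CuspForm (Gamma0 N) 2 →ₗ[ℂ] CuspForm (Gamma0 (N * q)) 2 where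
  toFun f :=
    { toFun := CuspForm.translate f (heckeDiagMatrix q)
      slash_action_eq' := fun γ hγ =>
        (CuspForm.translate f (heckeDiagMatrix q)).slash_action_eq' γ (stab_Gamma0_le_conj N q hγ)
      holo' := (CuspForm.translate f (heckeDiagMatrix q)).holo'
      zero_at_cusps' := fun hc =>
        (CuspForm.translate f (heckeDiagMatrix q)).zero_at_cusps' (hc.mono (stab_Gamma0_le_conj N q)) }
  map_add' f g := by
    apply DFunLike.coe_injective
    show (⇑(f + g) ∣[(2 : ℤ)] heckeDiagMatrix q) =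
      (⇑f ∣[(2 : ℤ)] heckeDiagMatrix q) + (⇑g ∣[(2 : ℤ)] heckeDiagMatrix q)
    rw [FunLike.coe_add, SlashAction.add_slash]
  map_smul' c f := by
    apply DFunLike.coe_injective
    funext z
    show (⇑(c • f) ∣[(2 : ℤ)] heckeDiagMatrix q) z = c * (⇑f ∣[(2 : ℤ)] heckeDiagMatrix q) z
    rw [slash_heckeDiagMatrix_apply 2 (NeZero.ne q), slash_heckeDiagMatrix_apply 2 (NeZero.ne q)]
    show _ * (c * f _) = _
    ring

theorem coe_inclB [NeZero q] (f : CuspForm (Gamma0 N) 2) :
    ⇑(inclB N q f) = ⇑f ∣[(2 : ℤ)] heckeDiagMatrix q := rfl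

theorem inclB_apply [NeZero q] (f : CuspForm (Gamma0 N) 2) (z : ℍ) :
    inclB N q f z = (q : ℂ) * f (heckeDiagMatrix q • z) := by
  rw [coe_inclB, slash_heckeDiagMatrix_apply 2 (NeZero.ne q)]
  norm_num

variable {N q}

/-- `U_q (f) = T_q f - f ∣ diag(q,1)`. -/
theorem U_inclA [NeZero N] [NeZero q] (hq : q.Prime) (hqN : ¬ q ∣ N) (f : CuspForm (Gamma0 N) 2) :
    CuspForm.heckeULin 2 (Dvd.intro_left N rfl : q ∣ N * q) (inclA N q f) =
      inclA N q (CuspForm.heckeTLin 2 hq hqN f) - inclB N q f := by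
  apply DFunLike.coe_injective
  rw [FunLike.coe_sub, coe_inclA, coe_inclB, CuspForm.coe_heckeULin_apply,
    CuspForm.coe_heckeTLin_apply, coe_inclA, heckeT_eq_heckeU_add, add_sub_cancel_right]

/-- `U_q (f ∣ diag(q,1)) = q f`. -/
theorem U_inclB [NeZero N] [NeZero q] (f : CuspForm (Gamma0 N) 2) :
    CuspForm.heckeULin 2 (Dvd.intro_left N rfl : q ∣ N * q) (inclB N q f) =
      (q : ℂ) • inclA N q f := by
  have hq0 : q ≠ 0 := NeZero.ne q
  have hq' : (q : ℂ) ≠ 0 := by exact_mod_cast hq0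
  apply DFunLike.coe_injective
  funext z
  rw [CuspForm.coe_heckeULin_apply, heckeU_apply 2 hq0]
  show _ = (q : ℂ) * f z
  rw [Finset.sum_congr rfl (fun j _ => by
    rw [inclB_apply, stab_diag_smul hq0, stab_period])]
  rw [Finset.sum_const, Finset.card_range]
  simp only [nsmul_eq_mul]
  field_simp

end Fermat.Agent.S41.Forms
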