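import Fermat.Agent.S41.Forms.Solve
import Fermat.Agent.S41.Forms.Comm

set_option autoImplicit false

/-!
# S41 / T8a / Main : the output of the chapter (`hold` = the hypothesis of `Link.e8`)
-/

open CongruenceSubgroup

namespace Fermat.Agent.S41.Forms

open Fermat.Agent.NEW

/-- a polynomial in the good Hecke operators which kills `Vnew` maps `S₂(Γ₀(Nq))` into the old space. -/
theorem hold {N q : ℕ} [NeZero N] [NeZero q] (hq : q.Prime) (hqN : ¬ q ∣ N) (G : ℕ → Prop)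
    (hG : ∀ ℓ, G ℓ → ℓ.Prime ∧ ¬ ℓ ∣ N * q) (P : FreeAlgebra ℤ ℕ)
    (hP : ∀ v ∈ S41.Vnew (N * q) q (Dvd.intro_left N rfl),
      FreeAlgebra.lift ℤ (S31.heckeFam (N * q)) (mask G P) v = 0)
    (g : CuspForm (Gamma0 (N * q)) 2) :
    ∃ f₁ f₂ : CuspForm (Gamma0 N) 2,
      FreeAlgebra.lift ℤ (S31.heckeFam (N * q)) (mask G P) g = inclA N q f₁ + inclB N q f₂ :=
  lift_mem_old G hG (forms_decomp_alt hq hqN) P hP g

end Fermat.Agent.S41.Forms
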