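import Fermat.Agent.S41.Forms.Incl

set_option autoImplicit false

/-!
# S41 / T8a / Mat : the matrices `W`, `δ_j`, scalar matrices act trivially in weight 2
-/

open UpperHalfPlane CongruenceSubgroup ModularForm ModularFormClass
open scoped MatrixGroups

namespace Fermat.Agent.S41.Forms

open Matrix.SpecialLinearGroup Fermat.Agent.S23

theorem mapGL_val (δ : SL(2, ℤ)) :
    ((mapGL ℝ δ : GL (Fin 2) ℝ) : Matrix (Fin 2) (Fin 2) ℝ) =
      !![((δ 0 0 : ℤ) : ℝ), ((δ 0 1 : ℤ) : ℝ); ((δ 1 0 : ℤ) : ℝ), ((δ 1 1 : ℤ) : ℝ)] := by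
  ext i j
  rw [mapGL_apply_entry]
  fin_cases i <;> fin_cases j <;> rfl

theorem det_mapGL_pos (δ : SL(2, ℤ)) : 0 < ((mapGL ℝ δ : GL (Fin 2) ℝ).det : ℝ) := by
  simp

/-- proportional matrices (positive determinant) have the same weight 2 slash action. -/
theorem slash_eq_of_smul (f : ℍ → ℂ) (A B : GL (Fin 2) ℝ) (c : ℝ) (hc : c ≠ 0)
    (hB : 0 < (B.det : ℝ))
    (h : (A : Matrix (Fin 2) (Fin 2) ℝ) = c • (B : Matrix (Fin 2) (Fin 2) ℝ)) :
    f ∣[(2 : ℤ)] A = f ∣[(2 : ℤ)] B := by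
  have hdet : (A.det : ℝ) = c ^ 2 * (B.det : ℝ) := by
    rw [Matrix.GeneralLinearGroup.val_det_apply, Matrix.GeneralLinearGroup.val_det_apply, h,
      Matrix.det_smul]
    simp
  have hA : 0 < (A.det : ℝ) := by
    rw [hdet]
    positivity
  have hc' : (c : ℂ) ≠ 0 := by exact_mod_cast hc
  have hnum : ∀ τ : ℍ, num A τ = c * num B τ := by
    intro τ
    simp only [num, h, Matrix.smul_apply, smul_eq_mul]
    push_cast
    ring
  have hden : ∀ τ : ℍ, denom A τ = c * denom B τ := by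
    intro τ
    simp only [denom, h, Matrix.smul_apply, smul_eq_mul]
    push_cast
    ring
  have hsm : ∀ τ : ℍ, A • τ = B • τ := by
    intro τ
    apply UpperHalfPlane.ext
    rw [coe_smul_of_det_pos hA, coe_smul_of_det_pos hB, hnum, hden, mul_div_mul_left _ _ hc']
  funext τ
  rw [ModularForm.slash_apply, ModularForm.slash_apply, hsm, hden, hdet, UpperHalfPlane.σ,
    UpperHalfPlane.σ, if_pos hA, if_pos hB]
  have hd0 : denom B τ ≠ 0 := denom_ne_zero B τ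
  rw [abs_of_pos (by positivity : 0 < c ^ 2 * (B.det : ℝ)), abs_of_pos hB]
  simp only [ContinuousAlgEquiv.refl_apply]
  norm_num
  field_simp

/-- Bezout data: `q s - N t = 1`. -/
structure Bez (N q : ℕ) (s t : ℤ) : Prop where
  q0 : q ≠ 0
  rel : (q : ℤ) * s - N * t = 1

theorem exists_bez {N q : ℕ} (hq : q.Prime) (hqN : ¬ q ∣ N) : ∃ s t : ℤ, Bez N q s t := by
  have h1 : IsCoprime (q : ℤ) (N : ℤ) :=
    Nat.isCoprime_iff_coprime.2 ((Nat.Prime.coprime_iff_not_dvd hq).2 hqN)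
  obtain ⟨a, b, hab⟩ := h1
  exact ⟨a, -b, hq.ne_zero, by linear_combination hab⟩

variable {N q : ℕ} {s t : ℤ}

theorem Bez.relR (h : Bez N q s t) : (q : ℝ) * s - N * t = 1 := by exact_mod_cast h.rel

/-- the Atkin--Lehner matrix `W = (q s, t; N q, q)`, of determinant `q`. -/
noncomputable def Wm (h : Bez N q s t) : GL (Fin 2) ℝ :=
  Matrix.GeneralLinearGroup.mkOfDetNeZero !![(q : ℝ) * s, (t : ℝ); (N : ℝ) * q, (q : ℝ)] (by
    rw [Matrix.det_fin_two_of]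
    have h2 : (q : ℝ) * s * q - t * (N * q) = q := by linear_combination (q : ℝ) * h.relR
    rw [h2]
    exact_mod_cast h.q0)

theorem val_Wm (h : Bez N q s t) :
    ((Wm h : GL (Fin 2) ℝ) : Matrix (Fin 2) (Fin 2) ℝ) =
      !![(q : ℝ) * s, (t : ℝ); (N : ℝ) * q, (q : ℝ)] := rfl

/-- the coset representatives `δ_j = (s, s j + t; N, N j + q)` of `Γ₀(Nq) \ Γ₀(N)`. -/
def dl (h : Bez N q s t) (j : ℤ) : SL(2, ℤ) :=
  ⟨!![s, s * j + t; (N : ℤ), N * j + q], by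
    rw [Matrix.det_fin_two_of]
    linear_combination h.rel⟩

theorem dl_apply (h : Bez N q s t) (j : ℤ) :
    ((dl h j : SL(2, ℤ)) : Matrix (Fin 2) (Fin 2) ℤ) = !![s, s * j + t; (N : ℤ), N * j + q] := rfl

theorem dl_mem (h : Bez N q s t) (j : ℤ) : dl h j ∈ Gamma0 N := by
  apply Gamma0_mem.mpr
  show (((N : ℤ) : ℤ) : ZMod N) = 0
  simp

/-- `W * (1, j; 0, q) = q δ_j`. -/
theorem Wm_mul_heckeMatrix (h : Bez N q s t) (j : ℕ) :
    ((Wm h * heckeMatrix q j : GL (Fin 2) ℝ) : Matrix (Fin 2) (Fin 2) ℝ) =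
      (q : ℝ) • ((mapGL ℝ (dl h j) : GL (Fin 2) ℝ) : Matrix (Fin 2) (Fin 2) ℝ) := by
  rw [Matrix.GeneralLinearGroup.coe_mul, val_Wm, val_heckeMatrix h.q0, mapGL_val, dl_apply,
    Matrix.mul_fin_two]
  ext a b
  fin_cases a <;> fin_cases b <;> simp <;> ring

/-- `γ₀ = W ^ 2 / q`. -/
def g0 (h : Bez N q s t) : SL(2, ℤ) :=
  ⟨!![q * s ^ 2 + N * t, s * t + t; (N : ℤ) * q * (s + 1), N * t + q], by
    rw [Matrix.det_fin_two_of]
    linear_combination ((q : ℤ) * s - N * t + 1) * h.rel⟩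

theorem g0_apply (h : Bez N q s t) :
    ((g0 h : SL(2, ℤ)) : Matrix (Fin 2) (Fin 2) ℤ) =
      !![q * s ^ 2 + N * t, s * t + t; (N : ℤ) * q * (s + 1), N * t + q] := rfl

theorem g0_mem (h : Bez N q s t) : g0 h ∈ Gamma0 (N * q) := by
  apply Gamma0_mem.mpr
  show (((N : ℤ) * q * (s + 1) : ℤ) : ZMod (N * q)) = 0
  rw [ZMod.intCast_zmod_eq_zero_iff_dvd]
  push_cast
  exact Dvd.intro _ rfl

theorem Wm_mul_Wm (h : Bez N q s t) :
    ((Wm h * Wm h : GL (Fin 2) ℝ) : Matrix (Fin 2) (Fin 2) ℝ) =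
      (q : ℝ) • ((mapGL ℝ (g0 h) : GL (Fin 2) ℝ) : Matrix (Fin 2) (Fin 2) ℝ) := by
  rw [Matrix.GeneralLinearGroup.coe_mul, val_Wm, mapGL_val, g0_apply, Matrix.mul_fin_two]
  ext a b
  fin_cases a <;> fin_cases b <;> simp <;> ring

end Fermat.Agent.S41.Forms
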