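import Fermat.Agent.S41.Forms.AL

set_option autoImplicit false

/-!
# S41 / T8a / Trace : `g + U_q (g ∣ W)` is the trace of `g` from `Γ₀(Nq)` to `Γ₀(N)`
-/

open UpperHalfPlane CongruenceSubgroup ModularForm ModularFormClass
open scoped MatrixGroups

namespace Fermat.Agent.S41.Forms

open Matrix.SpecialLinearGroup Fermat.Agent.S23

/-- `Γ₀(M)` inside `GL₂(ℝ)`. -/
abbrev GG (M : ℕ) : Subgroup (GL (Fin 2) ℝ) :=
  ((Gamma0 M : Subgroup SL(2, ℤ)) : Subgroup (GL (Fin 2) ℝ))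

theorem mapGL_mem_GG {M : ℕ} {γ : SL(2, ℤ)} : (mapGL ℝ γ : GL (Fin 2) ℝ) ∈ GG M ↔ γ ∈ Gamma0 M :=
  Subgroup.mem_map_iff_mem mapGL_injective

theorem mem_Gamma0_iff_dvd {M : ℕ} {γ : SL(2, ℤ)} : γ ∈ Gamma0 M ↔ (M : ℤ) ∣ γ 1 0 := by
  rw [Gamma0_mem, ZMod.intCast_zmod_eq_zero_iff_dvd]

variable {N q : ℕ} {s t : ℤ}

/-- the representatives. -/
noncomputable def rep (h : Bez N q s t) : Option (Fin q) → GG N
  | none => 1
  | some j => ⟨(mapGL ℝ (dl h (j : ℕ)) : GL (Fin 2) ℝ)⁻¹, inv_mem (mapGL_mem_GG.2 (dl_mem h _))⟩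

/-- the map to the coset space. -/
noncomputable def repQ (h : Bez N q s t) (i : Option (Fin q)) :
    GG N ⧸ (GG (N * q)).subgroupOf (GG N) := QuotientGroup.mk (rep h i)

theorem dl_not_mem [NeZero N] (hq : q.Prime) (h : Bez N q s t) (j : ℤ) :
    dl h j ∉ Gamma0 (N * q) := by
  rw [mem_Gamma0_iff_dvd]
  show ¬ ((N * q : ℕ) : ℤ) ∣ (N : ℤ)
  intro hd
  have h1 : N * q ∣ N := by exact_mod_cast hd
  have h2 : N * q ≤ N := Nat.le_of_dvd (Nat.pos_of_ne_zero (NeZero.ne N)) h1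
  have h3 := hq.two_le
  have h4 : 0 < N := Nat.pos_of_ne_zero (NeZero.ne N)
  nlinarith

theorem dl_mul_inv_10 (h : Bez N q s t) (i j : ℤ) :
    (dl h i * (dl h j)⁻¹) 1 0 = (N : ℤ) * (N * (j - i)) := by
  rw [Matrix.SpecialLinearGroup.coe_mul, Matrix.SpecialLinearGroup.coe_inv,
    Matrix.adjugate_fin_two, Matrix.mul_apply, Fin.sum_univ_two]
  simp [dl_apply]
  ring

theorem repQ_injective [NeZero N] (hq : q.Prime) (hqN : ¬ q ∣ N) (h : Bez N q s t) :
    Function.Injective (repQ h) := by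
  intro a b hab
  unfold repQ at hab
  rw [QuotientGroup.eq, Subgroup.mem_subgroupOf] at hab
  cases a with
  | none =>
    cases b with
    | none => rfl
    | some j =>
      exfalso
      have h1 : (mapGL ℝ (dl h (j : ℕ)) : GL (Fin 2) ℝ)⁻¹ ∈ GG (N * q) := by
        simpa [rep] using hab
      rw [inv_mem_iff, mapGL_mem_GG] at h1
      exact dl_not_mem hq h _ h1
  | some i =>
    cases b with
    | none =>
      exfalso
      have h1 : (mapGL ℝ (dl h (i : ℕ)) : GL (Fin 2) ℝ) ∈ GG (N * q) := by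
        simpa [rep] using hab
      rw [mapGL_mem_GG] at h1
      exact dl_not_mem hq h _ h1
    | some j =>
      have h1 : (mapGL ℝ (dl h (i : ℕ) * (dl h (j : ℕ))⁻¹) : GL (Fin 2) ℝ) ∈ GG (N * q) := by
        rw [map_mul, map_inv]
        simpa [rep] using hab
      rw [mapGL_mem_GG, mem_Gamma0_iff_dvd, dl_mul_inv_10] at h1
      push_cast at h1
      have hN : (N : ℤ) ≠ 0 := by exact_mod_cast NeZero.ne N
      have h2 : (q : ℤ) ∣ N * (((j : ℕ) : ℤ) - ((i : ℕ) : ℤ)) := (mul_dvd_mul_iff_left hN).1 h1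
      have hqp : Prime (q : ℤ) := Nat.prime_iff_prime_int.1 hq
      have h3 : (q : ℤ) ∣ ((j : ℕ) : ℤ) - ((i : ℕ) : ℤ) := by
        rcases hqp.dvd_or_dvd h2 with h4 | h4
        · exact absurd (by exact_mod_cast h4) hqN
        · exact h4
      have hi := i.2
      have hj := j.2
      have h5 : ((j : ℕ) : ℤ) - ((i : ℕ) : ℤ) = 0 := by
        apply Int.eq_zero_of_abs_lt_dvd h3
        rw [abs_lt]
        constructor <;> omega
      congr 1
      apply Fin.ext
      omega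

theorem repQ_surjective [NeZero N] (hq : q.Prime) (hqN : ¬ q ∣ N) (h : Bez N q s t) :
    Function.Surjective (repQ h) := by
  intro x
  obtain ⟨⟨g, hg⟩, rfl⟩ := QuotientGroup.mk_surjective x
  obtain ⟨γ, hγ, rfl⟩ := hg
  by_cases hγM : γ ∈ Gamma0 (N * q)
  · refine ⟨none, ?_⟩
    unfold repQ
    rw [QuotientGroup.eq, Subgroup.mem_subgroupOf]
    simpa [rep] using mapGL_mem_GG.2 hγM
  · have : Fact q.Prime := ⟨hq⟩
    obtain ⟨c', hc'⟩ := mem_Gamma0_iff_dvd.1 hγ
    have hu : (((N : ℤ) * c' : ℤ) : ZMod q) ≠ 0 := by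
      rw [Ne, ZMod.intCast_zmod_eq_zero_iff_dvd]
      intro hd
      have hqp : Prime (q : ℤ) := Nat.prime_iff_prime_int.1 hq
      rcases hqp.dvd_or_dvd hd with h4 | h4
      · exact hqN (by exact_mod_cast h4)
      · apply hγM
        rw [mem_Gamma0_iff_dvd, hc']
        push_cast
        exact mul_dvd_mul_left _ h4
    set j0 : ZMod q := -((γ 0 0 : ℤ) : ZMod q) * (((N : ℤ) * c' : ℤ) : ZMod q)⁻¹ with hj0
    refine ⟨some ⟨j0.val, ZMod.val_lt j0⟩, ?_⟩
    unfold repQ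
    rw [QuotientGroup.eq, Subgroup.mem_subgroupOf]
    have h1 : (mapGL ℝ (dl h (j0.val : ℕ) * γ) : GL (Fin 2) ℝ) ∈ GG (N * q) := by
      rw [mapGL_mem_GG, mem_Gamma0_iff_dvd, Matrix.SpecialLinearGroup.coe_mul, Matrix.mul_apply,
        Fin.sum_univ_two, hc']
      have e : (dl h (j0.val : ℕ)) 1 0 * γ 0 0 + (dl h (j0.val : ℕ)) 1 1 * ((N : ℤ) * c') =
          (N : ℤ) * (γ 0 0 + (N * c') * (j0.val : ℕ) + q * c') := by
        simp [dl_apply]
        ring
      rw [e]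
      push_cast
      apply mul_dvd_mul_left
      apply dvd_add _ (Dvd.intro _ rfl)
      rw [← ZMod.intCast_zmod_eq_zero_iff_dvd, Int.cast_add, Int.cast_mul _ ((j0.val : ℕ) : ℤ),
        Int.cast_natCast, ZMod.natCast_zmod_val, hj0]
      have key : ∀ a u : ZMod q, u ≠ 0 → a + u * (-a * u⁻¹) = 0 := by
        intro a u hu
        field_simp
        ring
      exact key _ _ hu
    rw [map_mul] at h1
    simpa [rep] using h1

theorem isFiniteRelIndex [NeZero N] (hq : q.Prime) (hqN : ¬ q ∣ N) (h : Bez N q s t) :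
    (GG (N * q)).IsFiniteRelIndex (GG N) := by
  have : NeZero q := ⟨hq.ne_zero⟩
  have hfin : Finite (GG N ⧸ (GG (N * q)).subgroupOf (GG N)) :=
    Finite.of_surjective _ (repQ_surjective hq hqN h)
  exact ⟨Subgroup.index_ne_zero_of_finite⟩

/-- **the trace identity**: there is a form `f` of level `N` with `f = g + U_q (g ∣ W)`. -/
theorem exists_trace [NeZero N] [NeZero q] (hq : q.Prime) (hqN : ¬ q ∣ N) (h : Bez N q s t)
    (g : CuspForm (Gamma0 (N * q)) 2) :
    ∃ f : CuspForm (Gamma0 N) 2,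
      inclA N q f = g + CuspForm.heckeULin 2 (Dvd.intro_left N rfl : q ∣ N * q) (wOp h g) := by
  have hfi := isFiniteRelIndex hq hqN h
  refine ⟨CuspForm.trace (GG N) g, ?_⟩
  apply DFunLike.coe_injective
  have hbij : Function.Bijective (repQ h) := ⟨repQ_injective hq hqN h, repQ_surjective hq hqN h⟩
  let _ : Fintype (GG N ⧸ (GG (N * q)).subgroupOf (GG N)) := Fintype.ofFinite _
  rw [coe_inclA, FunLike.coe_add, coe_U_wOp, CuspForm.coe_trace,
    ← Function.Bijective.sum_comp hbij, Fintype.sum_option, Finset.sum_range]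
  refine congrArg₂ (· + ·) ?_ ?_
  · show SlashInvariantForm.quotientFunc g ⟦rep h none⟧ = _
    rw [SlashInvariantForm.quotientFunc_mk]
    simp [rep]
  · apply Finset.sum_congr rfl
    intro j _
    show SlashInvariantForm.quotientFunc g ⟦rep h (some j)⟧ = _
    rw [SlashInvariantForm.quotientFunc_mk]
    simp [rep]

/-- **(E7), step 1**: `U_q ^ 2 g - g` is old. -/
theorem exists_old [NeZero N] [NeZero q] (hq : q.Prime) (hqN : ¬ q ∣ N)
    (g : CuspForm (Gamma0 (N * q)) 2) :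
    ∃ f₁ f₂ : CuspForm (Gamma0 N) 2,
      CuspForm.heckeULin 2 (Dvd.intro_left N rfl : q ∣ N * q)
        (CuspForm.heckeULin 2 (Dvd.intro_left N rfl : q ∣ N * q) g) - g =
      inclA N q f₁ + inclB N q f₂ := by
  obtain ⟨s, t, h⟩ := exists_bez hq hqN
  obtain ⟨f, hf⟩ := exists_trace hq hqN h g
  obtain ⟨f', hf'⟩ := exists_trace hq hqN h (wOp h g)
  rw [wOp_wOp] at hf'
  -- `U g = A f' - w g`, `U (w g) = A f - g`
  have h1 : CuspForm.heckeULin 2 (Dvd.intro_left N rfl : q ∣ N * q) g = inclA N q f' - wOp h g := by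
    rw [hf']; abel
  have h2 : CuspForm.heckeULin 2 (Dvd.intro_left N rfl : q ∣ N * q) (wOp h g) =
      inclA N q f - g := by
    rw [hf]; abel
  refine ⟨CuspForm.heckeTLin 2 hq hqN f' - f, -f', ?_⟩
  rw [h1, map_sub, h2, U_inclA hq hqN, map_sub, map_neg]
  abel

end Fermat.Agent.S41.Forms
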